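/-
S41 / package ES (helper22): the involution `γ ↦ diag(1,-1) γ diag(1,-1)` of `Γ₀(M)` commutes with
the cohomological Hecke operators `T_ℓ` (`ℓ ∤ M`) and `U_ℓ` (`ℓ ∣ M`) on `Γ₀(M)^ab`.

* abstract part (`S16lbHeckeData`): if an endomorphism `j` of `Γ` is implemented by conjugation by
  `D ∈ 𝔾` and `D α_i D⁻¹ = u_i α_{π i}` with `u_i ∈ Γ`, `π` a bijection, then the transfer map
  commutes with the map induced by `j` on `Γ^ab`;
* concrete part: `D = diag(1,-1)`, `π(∞) = ∞`, `π(j) = -j`, `u_j = [1 c; 0 1]`.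
-/
import Fermat.Agent.S16.LB.HeckeDec

set_option autoImplicit false

namespace Fermat.Agent.S41

open Fermat.Agent.S16LB CongruenceSubgroup ModularCurve ModularCurve.Period ModularForm
open P2MW.S_ModularForm_heckeT_slash_eq_self_of_mem_Gamma0.ModularForm.HeckeSlashInvariance
open scoped MatrixGroups BigOperators

section Abstract

variable {𝔾 Γ I : Type*} [Group 𝔾] [Group Γ] (H : S16lbHeckeData 𝔾 Γ I)

/-- the cocycle of a conjugated element. -/
theorem s41es_coc_conj (j : Γ →* Γ) (D : 𝔾) (hj : ∀ γ, H.ι (j γ) = D * H.ι γ * D⁻¹)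
    (π : I → I) (u : I → Γ) (hα : ∀ i, D * H.α i * D⁻¹ = H.ι (u i) * H.α (π i)) (γ : Γ) (i : I) :
    H.idx (j γ) (π i) = π (H.idx γ i) ∧
      H.coc (j γ) (π i) = (u i)⁻¹ * j (H.coc γ i) * u (H.idx γ i) := by
  have h := H.spec γ i
  have e1 : H.α (π i) = (H.ι (u i))⁻¹ * (D * H.α i * D⁻¹) := by rw [hα]; group
  have key : H.α (π i) * H.ι (j γ)
      = H.ι ((u i)⁻¹ * j (H.coc γ i) * u (H.idx γ i)) * H.α (π (H.idx γ i)) := by
    calc H.α (π i) * H.ι (j γ)
        = (H.ι (u i))⁻¹ * (D * (H.α i * H.ι γ) * D⁻¹) := by rw [e1, hj]; group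
      _ = (H.ι (u i))⁻¹ * (D * (H.ι (H.coc γ i) * H.α (H.idx γ i)) * D⁻¹) := by rw [h]
      _ = (H.ι (u i))⁻¹ * ((D * H.ι (H.coc γ i) * D⁻¹) * (D * H.α (H.idx γ i) * D⁻¹)) := by
          group
      _ = (H.ι (u i))⁻¹ * (H.ι (j (H.coc γ i)) * (H.ι (u (H.idx γ i)) * H.α (π (H.idx γ i)))) := by
          rw [← hj, hα]
      _ = H.ι ((u i)⁻¹ * j (H.coc γ i) * u (H.idx γ i)) * H.α (π (H.idx γ i)) := by
          simp only [map_mul, map_inv, mul_assoc]
  obtain ⟨h1, h2⟩ := H.unique key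
  exact ⟨h1.symm, h2.symm⟩

variable [Fintype I]

/-- the transfer map commutes with the map induced by `j` on the abelianisation. -/
theorem s41es_trHom_conj (j : Γ →* Γ) (D : 𝔾) (hj : ∀ γ, H.ι (j γ) = D * H.ι γ * D⁻¹)
    (π : I → I) (hπ : Function.Bijective π) (u : I → Γ)
    (hα : ∀ i, D * H.α i * D⁻¹ = H.ι (u i) * H.α (π i)) (γ : Γ) :
    H.trHom (Additive.ofMul (j γ))
      = (MonoidHom.toAdditive (Abelianization.map j)) (H.trHom (Additive.ofMul γ)) := by
  show ∑ i, Additive.ofMul (Abelianization.of (H.coc (j γ) i))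
    = (MonoidHom.toAdditive (Abelianization.map j))
        (∑ i, Additive.ofMul (Abelianization.of (H.coc γ i)))
  rw [map_sum]
  have h1 : ∑ i, Additive.ofMul (Abelianization.of (H.coc (j γ) i))
      = ∑ i, Additive.ofMul (Abelianization.of (H.coc (j γ) (π i))) :=
    (Equiv.sum_comp (Equiv.ofBijective π hπ)
      (fun i => Additive.ofMul (Abelianization.of (H.coc (j γ) i)))).symm
  rw [h1]
  have h2 : ∀ i, Additive.ofMul (Abelianization.of (H.coc (j γ) (π i)))
      = (MonoidHom.toAdditive (Abelianization.map j))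
          (Additive.ofMul (Abelianization.of (H.coc γ i)))
        + (Additive.ofMul (Abelianization.of (u (H.idx γ i)))
          - Additive.ofMul (Abelianization.of (u i))) := by
    intro i
    rw [(s41es_coc_conj H j D hj π u hα γ i).2]
    simp only [map_mul, map_inv, ofMul_mul, ofMul_inv, MonoidHom.toAdditive_apply_apply,
      toMul_ofMul, Abelianization.map_of]
    abel
  simp only [h2, Finset.sum_add_distrib, Finset.sum_sub_distrib]
  have h3 : ∑ i, Additive.ofMul (Abelianization.of (u (H.idx γ i)))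
      = ∑ i, Additive.ofMul (Abelianization.of (u i)) :=
    Equiv.sum_comp (H.perm γ) (fun i => Additive.ofMul (Abelianization.of (u i)))
  rw [h3, sub_self, add_zero]

/-- `trEnd` commutes with the map induced by `j`. -/
theorem s41es_trEnd_conj (j : Γ →* Γ) (D : 𝔾) (hj : ∀ γ, H.ι (j γ) = D * H.ι γ * D⁻¹)
    (π : I → I) (hπ : Function.Bijective π) (u : I → Γ)
    (hα : ∀ i, D * H.α i * D⁻¹ = H.ι (u i) * H.α (π i)) :
    H.trEnd.comp (MonoidHom.toAdditive (Abelianization.map j))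
      = (MonoidHom.toAdditive (Abelianization.map j)).comp H.trEnd := by
  refine AddMonoidHom.ext fun x => ?_
  obtain ⟨x, rfl⟩ := Additive.ofMul.surjective x
  obtain ⟨γ, rfl⟩ := QuotientGroup.mk_surjective (s := commutator Γ) x
  have e : (MonoidHom.toAdditive (Abelianization.map j))
      (Additive.ofMul (Abelianization.of γ)) = Additive.ofMul (Abelianization.of (j γ)) := by
    simp [Abelianization.map_of]
  show H.trEnd ((MonoidHom.toAdditive (Abelianization.map j))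
      (Additive.ofMul (Abelianization.of γ)))
    = (MonoidHom.toAdditive (Abelianization.map j))
        (H.trEnd (Additive.ofMul (Abelianization.of γ)))
  rw [e, S16lbHeckeData.trEnd_of, S16lbHeckeData.trEnd_of]
  exact s41es_trHom_conj H j D hj π hπ u hα γ

end Abstract

section Concrete

/-- `D = diag(1,-1)`. -/
noncomputable def s41esD : GL (Fin 2) ℝ := upperTriangularGL 1 0 (-1) (by norm_num)

theorem s41esD_val :
    ((s41esD : GL (Fin 2) ℝ) : Matrix (Fin 2) (Fin 2) ℝ) = !![1, 0; 0, -1] := rfl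

theorem s41esD_mul_self : s41esD * s41esD = 1 := by
  apply Units.ext
  rw [Units.val_mul, s41esD_val]
  ext i j
  fin_cases i <;> fin_cases j <;> simp [Matrix.mul_apply, Fin.sum_univ_two]

theorem s41esD_inv : s41esD⁻¹ = s41esD := inv_eq_of_mul_eq_one_right s41esD_mul_self

variable (M : ℕ)

/-- the involution of `Γ₀(M)` is conjugation by `D`. -/
theorem s41es_iota_jconj (γ : Gamma0 M) :
    s16lbIota M (jConjGamma0 M γ) = s41esD * s16lbIota M γ * s41esD⁻¹ := by
  rw [s41esD_inv, s16lbIota_apply, s16lbIota_apply]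
  apply Units.ext
  rw [Units.val_mul, Units.val_mul, s16lb_val_mapGL, s16lb_val_mapGL, s41esD_val]
  ext i j
  fin_cases i <;> fin_cases j <;>
    simp [Matrix.mul_apply, Fin.sum_univ_two, jConjGamma0_coe, jConjSL_coe, jConjMat]

/-- the upper unipotent `[1 c; 0 1]` in `SL₂(ℤ)`. -/
def s41esUpSL (c : ℤ) : SL(2, ℤ) := ⟨!![1, c; 0, 1], by simp [Matrix.det_fin_two]⟩

theorem s41esUpSL_mem (c : ℤ) : s41esUpSL c ∈ Gamma0 M := by
  apply s16lb_mem_Gamma0_of_dvd
  have : (s41esUpSL c) 1 0 = 0 := rfl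
  rw [this]
  exact dvd_zero _

/-- the upper unipotent `[1 c; 0 1]` in `Γ₀(M)`. -/
def s41esUp (c : ℤ) : Gamma0 M := ⟨s41esUpSL c, s41esUpSL_mem M c⟩

theorem s41esUp_val (c : ℤ) :
    ((s16lbIota M (s41esUp M c) : GL (Fin 2) ℝ) : Matrix (Fin 2) (Fin 2) ℝ)
      = !![1, (c : ℝ); 0, 1] := by
  rw [s16lbIota_apply, s16lb_val_mapGL]
  ext i j
  fin_cases i <;> fin_cases j <;> simp [s41esUp, s41esUpSL]

variable (ℓ : ℕ) [Fact ℓ.Prime]

/-- the permutation `x ↦ -x` of `ℙ¹(𝔽_ℓ)`. -/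
def s41esNeg (x : OnePoint (ZMod ℓ)) : OnePoint (ZMod ℓ) :=
  x.elim OnePoint.infty (fun j => ((-j : ZMod ℓ) : OnePoint (ZMod ℓ)))

theorem s41esNeg_neg (x : OnePoint (ZMod ℓ)) : s41esNeg ℓ (s41esNeg ℓ x) = x := by
  induction x using OnePoint.rec with
  | infty => rfl
  | coe j => simp [s41esNeg]

theorem s41esNeg_bijective : Function.Bijective (s41esNeg ℓ) :=
  Function.Involutive.bijective (s41esNeg_neg ℓ)

/-- the carry `(j.val + (-j).val) / ℓ ∈ {0, 1}`. -/
def s41esCarry (j : ZMod ℓ) : ℕ := (j.val + (-j).val) / ℓ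

theorem s41esCarry_mul (j : ZMod ℓ) : s41esCarry ℓ j * ℓ = j.val + (-j).val := by
  have : NeZero ℓ := ⟨(Fact.out : ℓ.Prime).ne_zero⟩
  have h : ℓ ∣ j.val + (-j).val := by
    rw [← ZMod.natCast_eq_zero_iff]
    push_cast
    rw [ZMod.natCast_zmod_val, ZMod.natCast_zmod_val, add_neg_cancel]
  exact Nat.div_mul_cancel h

/-- the unipotent corrections. -/
def s41esU (x : OnePoint (ZMod ℓ)) : Gamma0 M :=
  x.elim 1 (fun j => s41esUp M (-(s41esCarry ℓ j : ℤ)))

/-- `D α_x D⁻¹ = u_x α_{-x}`. -/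
theorem s41es_conj_heckeRep (x : OnePoint (ZMod ℓ)) :
    s41esD * heckeRep ℓ x * s41esD⁻¹ = s16lbIota M (s41esU M ℓ x) * heckeRep ℓ (s41esNeg ℓ x) := by
  have hℓ : ℓ ≠ 0 := (Fact.out : ℓ.Prime).ne_zero
  rw [s41esD_inv]
  apply Units.ext
  induction x using OnePoint.rec with
  | infty =>
    have h1 : s41esU M ℓ (OnePoint.infty) = 1 := rfl
    have h2 : s41esNeg ℓ (OnePoint.infty) = OnePoint.infty := rfl
    rw [h1, h2, map_one, one_mul, Units.val_mul, Units.val_mul, s41esD_val, heckeRep_infty,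
      val_heckeDiagMatrix hℓ]
    ext i j
    fin_cases i <;> fin_cases j <;> simp [Matrix.mul_apply, Fin.sum_univ_two]
  | coe j =>
    have h1 : s41esU M ℓ ((j : ZMod ℓ) : OnePoint (ZMod ℓ)) = s41esUp M (-(s41esCarry ℓ j : ℤ)) :=
      rfl
    have h2 : s41esNeg ℓ ((j : ZMod ℓ) : OnePoint (ZMod ℓ)) = ((-j : ZMod ℓ) : OnePoint (ZMod ℓ)) :=
      rfl
    have hc : ((s41esCarry ℓ j : ℝ)) * (ℓ : ℝ) = (j.val : ℝ) + ((-j).val : ℝ) := by
      exact_mod_cast s41esCarry_mul ℓ j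
    rw [h1, h2, Units.val_mul, Units.val_mul, Units.val_mul, s41esD_val, heckeRep_coe, heckeRep_coe,
      val_heckeMatrix hℓ, val_heckeMatrix hℓ, s41esUp_val]
    ext a b
    fin_cases a <;> fin_cases b <;> simp [-ZMod.natCast_val, Matrix.mul_apply, Fin.sum_univ_two]
    linarith

/-- the involution on `Γ₀(M)^ab`. -/
def s41esJab : s16lbAb M →+ s16lbAb M :=
  MonoidHom.toAdditive (Abelianization.map (jConjGamma0 M))

theorem s41esJab_cls (γ : Gamma0 M) :
    s41esJab M (s16lbCls M (Additive.ofMul γ)) = s16lbCls M (Additive.ofMul (jConjGamma0 M γ)) := by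
  simp [s41esJab, s16lbCls, Abelianization.map_of]

/-- `T_ℓ` commutes with the involution. -/
theorem s41es_trEnd_T_jconj (hℓM : ¬ ℓ ∣ M) :
    (s16lbDataT M ℓ hℓM).trEnd.comp (s41esJab M)
      = (s41esJab M).comp (s16lbDataT M ℓ hℓM).trEnd :=
  s41es_trEnd_conj (s16lbDataT M ℓ hℓM) (jConjGamma0 M) s41esD (s41es_iota_jconj M)
    (s41esNeg ℓ) (s41esNeg_bijective ℓ) (s41esU M ℓ) (s41es_conj_heckeRep M ℓ)

/-- `U_ℓ` commutes with the involution. -/
theorem s41es_trEnd_U_jconj (hℓM : ℓ ∣ M) :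
    (s16lbDataU M ℓ hℓM).trEnd.comp (s41esJab M)
      = (s41esJab M).comp (s16lbDataU M ℓ hℓM).trEnd :=
  s41es_trEnd_conj (s16lbDataU M ℓ hℓM) (jConjGamma0 M) s41esD (s41es_iota_jconj M)
    (fun j => -j) (Function.Involutive.bijective neg_neg)
    (fun j => s41esUp M (-(s41esCarry ℓ j : ℤ)))
    (fun j => s41es_conj_heckeRep M ℓ ((j : ZMod ℓ) : OnePoint (ZMod ℓ)))

end Concrete

end Fermat.Agent.S41
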