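/-
S41 / package ES (helper22): Eichler–Shimura OUTPUT step.

A nonzero parabolic class `φ ∈ Hom(Γ₀(M)^ab, ℂ)` which is a simultaneous eigenvector of the
cohomological Hecke operators `T_ℓ` (`ℓ ∈ PP`, `ℓ ∤ M`) and `U_q` (`q ∣ M`) yields a normalised
eigenform `g ∈ S₂(Γ₀(M))` with `a_ℓ(g) = λ_ℓ` (`ℓ ∈ PP`) and `a_q(g) = ε`.

Ingredients: S21 (`periodHomPair` is an isomorphism onto the parabolic classes), helper1's
`s16lb_periodMap_hecke` (equivariance of the period map for `T_ℓ`, `U_ℓ`), `ES/Invol.lean` (the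
Hecke operators commute with the involution), and the S49 library (simultaneous eigenvectors,
multiplicativity of the coefficients).
-/
import Fermat.Agent.S41.ES.Invol
import Fermat.Agent.S16.LB.HeckePeriod
import Fermat.Agent.S21
import Fermat.Agent.S49.Eigen
import Fermat.Agent.S49.Core
import Fermat.Agent.G.Per.Defs

set_option autoImplicit false

namespace Fermat.Agent.S41

open Fermat.Agent.S16LB Fermat.Agent.S21 Fermat.Agent.S49 Fermat.Agent.G
open CongruenceSubgroup ModularCurve ModularCurve.Period ModularForm ModularFormClass Module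
open P2MW.S_ModularForm_heckeT_slash_eq_self_of_mem_Gamma0.ModularForm.HeckeSlashInvariance
open scoped MatrixGroups BigOperators

noncomputable section

variable (M : ℕ) [NeZero M]

/-! ## The action of endomorphisms of `Γ₀(M)^ab` on characters -/

theorem s41es_desc_smul (c : ℂ) (ψ : Additive (Gamma0 M) →+ ℂ) :
    s16lbDesc (c • ψ) = c • s16lbDesc ψ :=
  s16lbAb_ext fun γ => by simp

/-- `ψ ↦ ψ ∘ θ` on characters of `Γ₀(M)`. -/
def s41esOp (θ : s16lbAb M →+ s16lbAb M) :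
    (Additive (Gamma0 M) →+ ℂ) →ₗ[ℂ] (Additive (Gamma0 M) →+ ℂ) where
  toFun ψ := ((s16lbDesc ψ).comp θ).comp (s16lbCls M)
  map_add' ψ ψ' := by
    refine AddMonoidHom.ext fun γ => ?_
    simp [s16lbDesc_add]
  map_smul' c ψ := by
    refine AddMonoidHom.ext fun γ => ?_
    simp [s41es_desc_smul]

theorem s41esOp_apply (θ : s16lbAb M →+ s16lbAb M) (ψ : Additive (Gamma0 M) →+ ℂ)
    (γ : Additive (Gamma0 M)) : s41esOp M θ ψ γ = s16lbDesc ψ (θ (s16lbCls M γ)) := rfl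

theorem s41es_desc_invol (ψ : Additive (Gamma0 M) →+ ℂ) :
    s16lbDesc (charInvolution M ℂ ℂ ψ) = (s16lbDesc ψ).comp (s41esJab M) := by
  refine s16lbAb_ext fun γ => ?_
  obtain ⟨γ, rfl⟩ := Additive.ofMul.surjective γ
  rw [s16lbDesc_cls, AddMonoidHom.comp_apply, s41esJab_cls, s16lbDesc_cls]
  rfl

/-- an operator commuting with the involution on `Γ₀(M)^ab` commutes with `charInvolution`. -/
theorem s41esOp_invol {θ : s16lbAb M →+ s16lbAb M}
    (hθ : θ.comp (s41esJab M) = (s41esJab M).comp θ) (ψ : Additive (Gamma0 M) →+ ℂ) :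
    s41esOp M θ (charInvolution M ℂ ℂ ψ) = charInvolution M ℂ ℂ (s41esOp M θ ψ) := by
  refine AddMonoidHom.ext fun γ => ?_
  obtain ⟨γ, rfl⟩ := Additive.ofMul.surjective γ
  rw [s41esOp_apply, s41es_desc_invol, AddMonoidHom.comp_apply, charInvolution_apply,
    s41esOp_apply]
  have h := DFunLike.congr_fun hθ (s16lbCls M (Additive.ofMul γ))
  rw [AddMonoidHom.comp_apply, AddMonoidHom.comp_apply, s41esJab_cls] at h
  rw [← h]
  rfl

/-- compatibility of a cohomological operator `θ` with an operator `t` on cusp forms. -/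
def S41esCompat (θ : s16lbAb M →+ s16lbAb M) (t : End ℂ (CuspForm (Gamma0 M) 2)) : Prop :=
  θ.comp (s41esJab M) = (s41esJab M).comp θ ∧
    ∀ f : CuspForm (Gamma0 M) 2, s41esOp M θ (pml M f) = pml M (t f)

theorem s41esOp_pair {θ : s16lbAb M →+ s16lbAb M} {t : End ℂ (CuspForm (Gamma0 M) 2)}
    (h : S41esCompat M θ t) (f g : CuspForm (Gamma0 M) 2) :
    s41esOp M θ (periodHomPair M (f, g)) = periodHomPair M (t f, t g) := by
  rw [periodHomPair_eq]
  simp only [LinearMap.coprod_apply, LinearMap.comp_apply, LinearMap.add_apply,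
    LinearMap.sub_apply, LinearMap.id_apply, map_add, map_sub, s41esOp_invol M h.1, h.2]

/-- the `T_ℓ` case. -/
theorem s41es_compat_T {ℓ : ℕ} (hℓ : ℓ.Prime) (hℓM : ¬ ℓ ∣ M) :
    S41esCompat M (gprT M ℓ) (CuspForm.heckeTLin 2 hℓ hℓM) := by
  haveI : Fact ℓ.Prime := ⟨hℓ⟩
  rw [gprT_eq M hℓM]
  refine ⟨s41es_trEnd_T_jconj M ℓ hℓM, fun f => ?_⟩
  have h := s16lb_periodMap_hecke (ℓ := ℓ) M (s16lbDataT M ℓ hℓM) rfl id (fun _ => rfl) f
    (CuspForm.heckeTLin 2 hℓ hℓM f) (fun τ => by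
      rw [CuspForm.heckeTLin_apply_apply, heckeT_eq_sum_onePoint, Finset.sum_apply]
      rfl)
  refine AddMonoidHom.ext fun γ => ?_
  rw [s41esOp_apply, pml_apply, pml_apply, ← AddMonoidHom.comp_apply, ← h, s16lbDesc_cls]

/-- the `U_q` case. -/
theorem s41es_compat_U {q : ℕ} [Fact q.Prime] (hqM : q ∣ M) :
    S41esCompat M (s16lbDataU M q hqM).trEnd (CuspForm.heckeULin 2 hqM) := by
  refine ⟨s41es_trEnd_U_jconj M q hqM, fun f => ?_⟩
  have h := s16lb_periodMap_hecke (ℓ := q) M (s16lbDataU M q hqM) rfl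
    (fun j => (j : OnePoint (ZMod q))) (fun _ => rfl) f
    (CuspForm.heckeULin 2 hqM f) (fun τ => by
      rw [CuspForm.heckeULin_apply_apply, heckeU_eq_sum_zmod, Finset.sum_apply]
      rfl)
  refine AddMonoidHom.ext fun γ => ?_
  rw [s41esOp_apply, pml_apply, pml_apply, ← AddMonoidHom.comp_apply, ← h, s16lbDesc_cls]

/-! ## From a cohomological eigenclass to eigenvectors in `S₂` -/

/-- an eigenclass comes from a pair of eigenvectors. -/
theorem s41es_eigen_pair {θ : s16lbAb M →+ s16lbAb M} {t : End ℂ (CuspForm (Gamma0 M) 2)}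
    (h : S41esCompat M θ t) (φ : s16lbAb M →+ ℂ) (c : ℂ) (hφ : φ.comp θ = c • φ)
    (f g : CuspForm (Gamma0 M) 2) (hfg : periodHomPair M (f, g) = φ.comp (s16lbCls M)) :
    t f = c • f ∧ t g = c • g := by
  have h1 : s41esOp M θ (φ.comp (s16lbCls M)) = c • φ.comp (s16lbCls M) := by
    refine AddMonoidHom.ext fun γ => ?_
    rw [s41esOp_apply, s16lbDesc_comp_eq, ← AddMonoidHom.comp_apply, hφ]
    rfl
  have h2 : periodHomPair M (t f, t g) = periodHomPair M (c • f, c • g) := by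
    rw [← s41esOp_pair M h, hfg, h1, ← hfg, ← map_smul]
    rfl
  have h3 := (Fermat.Agent.S21.result M).1 h2
  exact ⟨congrArg Prod.fst h3, congrArg Prod.snd h3⟩

/-! ## Simultaneous eigenvectors of the full Hecke ring inside a stable subspace -/

/-- a nonzero subspace of `S₂(Γ₀(M))` stable under the (commutative) Hecke ring contains a
simultaneous eigenvector. -/
theorem s41es_exists_eigen (E : Submodule ℂ (CuspForm (Gamma0 M) 2)) (hE : E ≠ ⊥)
    (hst : ∀ t : HT M, ∀ w ∈ E, rho M t w ∈ E) :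
    ∃ (v : CuspForm (Gamma0 M) 2) (χ : HT M →+* ℂ), v ∈ E ∧ v ≠ 0 ∧ ∀ t, rho M t v = χ t • v := by
  classical
  -- the annihilator of `E`
  let Ann : Ideal (HT M) :=
    { carrier := {x | ∀ w ∈ E, rho M x w = 0}
      add_mem' := by
        intro a b ha hb w hw
        rw [map_add, LinearMap.add_apply, ha w hw, hb w hw, add_zero]
      zero_mem' := by
        intro w _
        rw [map_zero, LinearMap.zero_apply]
      smul_mem' := by
        intro c x hx w hw
        rw [smul_eq_mul, map_mul, Module.End.mul_apply, hx w hw, map_zero] }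
  have hAnn : Ann ≠ ⊤ := by
    intro htop
    obtain ⟨w, hwE, hw0⟩ := Submodule.exists_mem_ne_zero_of_ne_bot hE
    have h1 : (1 : HT M) ∈ Ann := by rw [htop]; exact Submodule.mem_top
    have := h1 w hwE
    rw [map_one, Module.End.one_apply] at this
    exact hw0 this
  obtain ⟨m, hm, hle⟩ := Ideal.exists_le_maximal Ann hAnn
  haveI : m.IsPrime := hm.isPrime
  have hGood : Good (rho M) m E := ⟨hst, fun x hx => hle hx⟩
  obtain ⟨W, hWE, hW, hsc⟩ := exists_good_scalar (rho M) m _ E rfl hGood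
  choose μ hμ using hsc
  obtain ⟨v, hvW, hv⟩ := Submodule.exists_mem_ne_zero_of_ne_bot (hW.ne_bot hm.ne_top)
  have hinj : Function.Injective fun c : ℂ => c • v := smul_left_injective ℂ hv
  refine ⟨v, ⟨⟨⟨μ, ?_⟩, ?_⟩, ?_, ?_⟩, hWE hvW, hv, fun t => hμ t v hvW⟩
  · apply hinj
    simp only
    rw [← hμ 1 v hvW, map_one, one_smul, Module.End.one_apply]
  · intro s t
    apply hinj
    simp only
    rw [← hμ (s * t) v hvW, map_mul, Module.End.mul_apply, hμ t v hvW, map_smul, hμ s v hvW,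
      smul_smul, mul_comm]
  · apply hinj
    simp only
    rw [← hμ 0 v hvW, map_zero, zero_smul, LinearMap.zero_apply]
  · intro s t
    apply hinj
    simp only
    rw [← hμ (s + t) v hvW, map_add, LinearMap.add_apply, hμ s v hvW, hμ t v hvW, add_smul]

/-- normalisation of a simultaneous eigenvector (S49 library), keeping track of ALL prime
coefficients. -/
theorem s41es_exists_normalized {v : CuspForm (Gamma0 M) 2} (hv : v ≠ 0) {χ : HT M →+* ℂ}
    (hχ : ∀ t, rho M t v = χ t • v) :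
    ∃ g : CuspForm (Gamma0 M) 2, g.IsNormalizedEigenform ∧
      ∀ ℓ : ℕ, ℓ.Prime → qCoeff ⇑g ℓ = lamOf χ ℓ := by
  have hrel := heckeRel_of_eigen hχ
  have hb1 : qCoeff ⇑v 1 ≠ 0 := by
    intro h1
    apply hv
    apply qc_injective M 2
    rw [map_zero]
    funext n
    rcases Nat.eq_zero_or_pos n with h0 | hpos
    · rw [h0]
      exact qc_zero_coeff v
    · exact hrel.eq_zero_of_one h1 n hpos
  set c : ℂ := (qCoeff ⇑v 1)⁻¹ with hc
  have hrel' : HeckeRel (eN M) (lamOf χ) (fun n => qCoeff ⇑(c • v) n) := by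
    have := hrel.smul c
    simpa only [qc_smul] using this
  have h1 : qCoeff ⇑(c • v) 1 = 1 := by
    rw [qc_smul, hc, inv_mul_cancel₀ hb1]
  refine ⟨c • v, ⟨h1, ?_, ?_, ?_⟩, ?_⟩
  · exact hrel'.mul_coprime h1
  · intro p r hp hpN
    have := hrel'.prime_pow h1 hp r
    simp only [eN, if_neg hpN] at this
    exact this
  · intro p r hp hpN
    have := hrel'.prime_pow h1 hp r
    simp only [eN, if_pos hpN, zero_mul, sub_zero] at this
    exact this
  · intro ℓ hℓ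
    exact hrel'.prime_eq h1 hℓ

/-! ## The main theorem of the package -/

/-- **ES, output step.** -/
theorem s41es_main {q : ℕ} [Fact q.Prime] (hqM : q ∣ M) (PP : Set ℕ)
    (hPP : ∀ ℓ ∈ PP, ℓ.Prime ∧ ¬ ℓ ∣ M) (φ : s16lbAb M →+ ℂ)
    (hpar : φ.comp (s16lbCls M) ∈ parabolicHoms ℂ (Gamma0 M) ℂ) (hφ : φ ≠ 0)
    (lam : ℕ → ℂ) (hT : ∀ ℓ ∈ PP, φ.comp (gprT M ℓ) = lam ℓ • φ) (ε : ℂ)
    (hU : φ.comp (s16lbDataU M q hqM).trEnd = ε • φ) :
    ∃ g : CuspForm (Gamma0 M) 2, g.IsNormalizedEigenform ∧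
      (∀ ℓ ∈ PP, qCoeff ⇑g ℓ = lam ℓ) ∧ qCoeff ⇑g q = ε := by
  have hq : q.Prime := Fact.out
  -- the pair of forms
  have hrange : φ.comp (s16lbCls M) ∈ LinearMap.range (periodHomPair M) := by
    rw [(Fermat.Agent.S21.result M).2]; exact hpar
  obtain ⟨⟨f, g⟩, hfg⟩ := hrange
  -- the joint eigenspace
  let E : Submodule ℂ (CuspForm (Gamma0 M) 2) :=
    { carrier := {h | (∀ ℓ (hℓ : ℓ ∈ PP),
          CuspForm.heckeTLin 2 (hPP ℓ hℓ).1 (hPP ℓ hℓ).2 h = lam ℓ • h) ∧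
          CuspForm.heckeULin 2 hqM h = ε • h}
      add_mem' := by
        rintro a b ⟨ha1, ha2⟩ ⟨hb1, hb2⟩
        refine ⟨fun ℓ hℓ => ?_, ?_⟩
        · rw [map_add, ha1 ℓ hℓ, hb1 ℓ hℓ, smul_add]
        · rw [map_add, ha2, hb2, smul_add]
      zero_mem' := by
        refine ⟨fun ℓ hℓ => ?_, ?_⟩
        · rw [map_zero, smul_zero]
        · rw [map_zero, smul_zero]
      smul_mem' := by
        rintro c a ⟨ha1, ha2⟩
        refine ⟨fun ℓ hℓ => ?_, ?_⟩
        · rw [map_smul, ha1 ℓ hℓ, smul_comm]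
        · rw [map_smul, ha2, smul_comm] }
  have hmemE : ∀ h : CuspForm (Gamma0 M) 2, h ∈ E ↔
      (∀ ℓ (hℓ : ℓ ∈ PP), CuspForm.heckeTLin 2 (hPP ℓ hℓ).1 (hPP ℓ hℓ).2 h = lam ℓ • h) ∧
        CuspForm.heckeULin 2 hqM h = ε • h := fun h => Iff.rfl
  have hfE : f ∈ E ∧ g ∈ E := by
    have hTfg : ∀ ℓ (hℓ : ℓ ∈ PP),
        CuspForm.heckeTLin 2 (hPP ℓ hℓ).1 (hPP ℓ hℓ).2 f = lam ℓ • f ∧
        CuspForm.heckeTLin 2 (hPP ℓ hℓ).1 (hPP ℓ hℓ).2 g = lam ℓ • g := fun ℓ hℓ =>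
      s41es_eigen_pair M (s41es_compat_T M (hPP ℓ hℓ).1 (hPP ℓ hℓ).2) φ (lam ℓ) (hT ℓ hℓ) f g hfg
    have hUfg := s41es_eigen_pair M (s41es_compat_U M hqM) φ ε hU f g hfg
    exact ⟨⟨fun ℓ hℓ => (hTfg ℓ hℓ).1, hUfg.1⟩, ⟨fun ℓ hℓ => (hTfg ℓ hℓ).2, hUfg.2⟩⟩
  have hE : E ≠ ⊥ := by
    intro hbot
    have hf0 : f = 0 := by
      have := hfE.1; rw [hbot, Submodule.mem_bot] at this; exact this
    have hg0 : g = 0 := by
      have := hfE.2; rw [hbot, Submodule.mem_bot] at this; exact this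
    apply hφ
    have h0 : φ.comp (s16lbCls M) = 0 := by
      rw [← hfg, hf0, hg0]
      exact map_zero _
    refine s16lbAb_ext fun γ => ?_
    have := DFunLike.congr_fun h0 γ
    simpa using this
  -- stability under the Hecke ring
  have hst : ∀ t : HT M, ∀ w ∈ E, rho M t w ∈ E := by
    intro t w hw
    rw [hmemE] at hw ⊢
    refine ⟨fun ℓ hℓ => ?_, ?_⟩
    · have h1 := rho_comm (rho M)
        (CuspForm.heckeAlgebra.T (hPP ℓ hℓ).1 (hPP ℓ hℓ).2 (Set.notMem_empty ℓ)) t w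
      rw [rho_apply, CuspForm.heckeAlgebra.coe_T, hw.1 ℓ hℓ, map_smul] at h1
      exact h1
    · have h1 := rho_comm (rho M)
        (CuspForm.heckeAlgebra.U hq hqM (Set.notMem_empty q)) t w
      rw [rho_apply, CuspForm.heckeAlgebra.coe_U, hw.2, map_smul] at h1
      exact h1
  obtain ⟨v, χ, hvE, hv0, hχ⟩ := s41es_exists_eigen M E hE hst
  obtain ⟨g₀, hg₀, hcoef⟩ := s41es_exists_normalized M hv0 hχ
  have hinj : Function.Injective fun c : ℂ => c • v := smul_left_injective ℂ hv0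
  rw [hmemE] at hvE
  refine ⟨g₀, hg₀, fun ℓ hℓ => ?_, ?_⟩
  · rw [hcoef ℓ (hPP ℓ hℓ).1]
    simp only [lamOf, dif_pos (hPP ℓ hℓ).1, dif_neg (hPP ℓ hℓ).2]
    apply hinj
    simp only
    rw [← hχ, rho_apply, CuspForm.heckeAlgebra.coe_T, hvE.1 ℓ hℓ]
  · rw [hcoef q hq]
    simp only [lamOf, dif_pos hq, dif_pos hqM]
    apply hinj
    simp only
    rw [← hχ, rho_apply, CuspForm.heckeAlgebra.coe_U, hvE.2]

end

end Fermat.Agent.S41
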